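import Fermat.Agent.HilbertSpeiser.Trace
import Fermat.Agent.ConductorDiscr.PlusPart

/-!
# Squarefree conductors

The field of a group of characters with squarefree conductors lies in a cyclotomic field of squarefree level; the
conductor of a character of prime order `ℓ` is squarefree exactly when `ℓ` does not divide it.
-/

set_option autoImplicit false
set_option linter.style.haveILetI false

noncomputable section

open NumberField IntermediateField DirichletCharacter
open scoped Classical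

namespace FA.HilbertSpeiser

theorem squarefree_prod_primes (s : Finset ℕ) (hs : ∀ p ∈ s, p.Prime) : Squarefree (∏ p ∈ s, p) :=
  Finset.squarefree_prod_of_pairwise_isCoprime
    (fun p hp q hq h => Nat.coprime_iff_isRelPrime.mp ((Nat.coprime_primes (hs p hp) (hs q hq)).mpr h))
    fun p hp => (hs p hp).squarefree

/-- A primitive character is nontrivial on the kernel of a reduction, so its order meets the order of the kernel. -/
theorem not_coprime_of_dvd_conductor {d q k c : ℕ} [NeZero d] (hq : q ∣ d) (hlt : q < d)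
    {ψ : DirichletCharacter ℂ d} (hψ : ψ.IsPrimitive) (hk : ψ ^ k = 1)
    (hc : c * q.totient = d.totient) : ¬ k.Coprime c := fun hco => by
  haveI : NeZero q := ⟨fun e => NeZero.ne d (by simpa [e] using hq)⟩
  have hker : Nat.card (ZMod.unitsMap hq).ker = c := by
    have h := Subgroup.card_mul_index (ZMod.unitsMap hq).ker
    rw [Subgroup.index_ker, MonoidHom.range_eq_top.mpr (ZMod.unitsMap_surjective _), Subgroup.card_top,
      Nat.card_eq_fintype_card (α := (ZMod q)ˣ), Nat.card_eq_fintype_card (α := (ZMod d)ˣ),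
      ZMod.card_units_eq_totient, ZMod.card_units_eq_totient, ← hc] at h
    exact Nat.eq_of_mul_eq_mul_right (Nat.totient_pos.mpr (NeZero.pos q)) h
  have hfac : ψ.FactorsThrough q := by
    refine (factorsThrough_iff_ker_unitsMap hq).mpr fun u hu => MonoidHom.mem_ker.mpr ?_
    have h1 : ψ.toUnitHom u ^ c = 1 := by
      have h := pow_card_eq_one' (G := (ZMod.unitsMap hq).ker) (x := ⟨u, hu⟩)
      rw [hker] at h
      rw [← map_pow, show u ^ c = 1 from congrArg Subtype.val h, map_one]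
    have h2 : ψ.toUnitHom u ^ k = 1 := by
      have h := congrArg (fun φ : DirichletCharacter ℂ d => φ (u : ZMod d)) hk
      rw [MulChar.pow_apply_coe, MulChar.one_apply u.isUnit] at h
      refine Units.ext ?_
      rw [Units.val_pow_eq_pow_val, MulChar.coe_toUnitHom, Units.val_one]
      exact h
    have h3 := pow_gcd_eq_one.mpr ⟨h2, h1⟩
    rwa [hco.gcd_eq_one, pow_one] at h3
  have hle := conductor_dvd_of_mem_conductorSet ψ (mem_conductorSet_iff _ |>.mpr hfac)
  rw [isPrimitive_def] at hψ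
  rw [hψ] at hle
  exact absurd (Nat.le_of_dvd (NeZero.pos q) hle) (not_le.mpr hlt)

/-- `p ^ 2` in the conductor forces `p` in the order. -/
theorem dvd_order_of_sq_dvd_conductor {n : ℕ} [NeZero n] {χ : DirichletCharacter ℂ n} {k p : ℕ} (hk : χ ^ k = 1)
    (hp : p.Prime) (hdvd : p * p ∣ χ.conductor) : p ∣ k := by
  by_contra hpk
  obtain ⟨m, hm⟩ := hdvd
  haveI : NeZero χ.conductor := ⟨χ.conductor_ne_zero⟩
  have hψ : χ.primitiveCharacter ^ k = 1 := changeLevel_injective χ.conductor_dvd_level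
    (by rw [map_pow, map_one, changeLevel_primitiveCharacter, hk])
  have hm0 : 0 < m := Nat.pos_of_ne_zero fun e => χ.conductor_ne_zero (by rw [hm, e, mul_zero])
  refine not_coprime_of_dvd_conductor (q := p * m) (c := p) ⟨p, by rw [hm]; ring⟩ ?_
    χ.primitiveCharacter_isPrimitive hψ ?_ (Nat.Coprime.symm (hp.coprime_iff_not_dvd.mpr hpk))
  · rw [hm, mul_assoc]
    exact lt_mul_left (Nat.mul_pos hp.pos hm0) hp.one_lt
  · rw [← Nat.totient_mul_of_prime_of_dvd hp (dvd_mul_right p m), hm, mul_assoc]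

/-- A prime order does not divide a squarefree conductor. -/
theorem not_order_dvd_squarefree_conductor {n : ℕ} [NeZero n] {χ : DirichletCharacter ℂ n} {ℓ : ℕ}
    (hk : χ ^ ℓ = 1) (hℓ : ℓ.Prime) (hsq : Squarefree χ.conductor) : ¬ ℓ ∣ χ.conductor := fun hdvd => by
  obtain ⟨m, hm⟩ := hdvd
  haveI : NeZero χ.conductor := ⟨χ.conductor_ne_zero⟩
  have hψ : χ.primitiveCharacter ^ ℓ = 1 := changeLevel_injective χ.conductor_dvd_level
    (by rw [map_pow, map_one, changeLevel_primitiveCharacter, hk])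
  have hm0 : 0 < m := Nat.pos_of_ne_zero fun e => χ.conductor_ne_zero (by rw [hm, e, mul_zero])
  have hℓm : ¬ ℓ ∣ m := fun ⟨t, ht⟩ => hℓ.not_isUnit (hsq ℓ ⟨t, by rw [hm, ht, mul_assoc]⟩)
  refine not_coprime_of_dvd_conductor (q := m) (c := ℓ - 1) ⟨ℓ, by rw [hm, mul_comm]⟩ ?_
    χ.primitiveCharacter_isPrimitive hψ ?_ ?_
  · rw [hm]
    exact lt_mul_left hm0 hℓ.one_lt
  · rw [hm, Nat.totient_mul (hℓ.coprime_iff_not_dvd.mpr hℓm), Nat.totient_prime hℓ]
  · exact hℓ.coprime_iff_not_dvd.mpr fun h => by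
      have := Nat.le_of_dvd (by have := hℓ.one_lt; omega) h
      have := hℓ.one_lt
      omega

set_option backward.isDefEq.respectTransparency false in
/-- The conductors of the characters of a subfield of `ℚ(ζ_m) ⊆ ℚ(ζ_n)` divide `m`, and conversely. -/
theorem exists_level_of_conductors {n : ℕ} [NeZero n] (F : Type*) [Field F] [NumberField F]
    (f : F →ₐ[ℚ] CyclotomicField n ℚ) [IsCyclotomicExtension {n} ℚ (CyclotomicField n ℚ)]
    [IsAbelianGalois ℚ (CyclotomicField n ℚ)]
    (h : ∀ χ ∈ FA.AbelianZeta.fieldChars n (CyclotomicField n ℚ) f.fieldRange, Squarefree χ.conductor) :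
    ∃ m : ℕ, Squarefree m ∧ 0 < m ∧ Nonempty (F →ₐ[ℚ] CyclotomicField m ℚ) := by
  set m := ∏ p ∈ n.primeFactors, p with hm
  have hsq : Squarefree m := squarefree_prod_primes _ fun p hp => Nat.prime_of_mem_primeFactors hp
  have hm0 : 0 < m := Finset.prod_pos fun p hp => (Nat.prime_of_mem_primeFactors hp).pos
  haveI : NeZero m := ⟨hm0.ne'⟩
  obtain ⟨t, ht⟩ : m ∣ n := Nat.prod_primeFactors_dvd n
  have hζ := IsCyclotomicExtension.zeta_spec n ℚ (CyclotomicField n ℚ)
  set L := ℚ⟮IsCyclotomicExtension.zeta n ℚ (CyclotomicField n ℚ) ^ t⟯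
  haveI : IsCyclotomicExtension {m} ℚ L :=
    (hζ.pow (NeZero.pos n) (by rw [ht, mul_comm])).intermediateField_adjoin_isCyclotomicExtension ℚ
  haveI : IsGalois ℚ L := IsCyclotomicExtension.isGalois {m} ℚ _
  have hsub : FA.AbelianZeta.fieldChars n (CyclotomicField n ℚ) f.fieldRange ≤
      FA.AbelianZeta.fieldChars n (CyclotomicField n ℚ) L := fun χ hχ => by
    rw [FA.AbelianZeta.fieldChars, IsCyclotomicExtension.Rat.mem_intermediateFieldEquivSubgroupChar_iff_conductor_dvd
      n (CyclotomicField n ℚ) ℂ _ ⟨t, ht⟩]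
    rw [← Nat.prod_primeFactors_of_squarefree (h χ hχ)]
    exact Finset.prod_dvd_prod_of_subset _ _ _ (Nat.primeFactors_mono χ.conductor_dvd_level (NeZero.ne n))
  have hle := (IsCyclotomicExtension.Rat.intermediateFieldEquivSubgroupChar n (CyclotomicField n ℚ) ℂ).le_iff_le.mp
    hsub
  haveI : NeZero (m : ℚ) := ⟨Nat.cast_ne_zero.mpr hm0.ne'⟩
  haveI : IsCyclotomicExtension {m} ℚ (CyclotomicField m ℚ) := CyclotomicField.isCyclotomicExtension m ℚ
  exact ⟨m, hsq, hm0, ⟨((IsCyclotomicExtension.algEquiv {m} ℚ L (CyclotomicField m ℚ)).toAlgHom.comp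
    ((inclusion hle).comp (AlgEquiv.ofInjectiveField f).toAlgHom))⟩⟩

set_option backward.isDefEq.respectTransparency false in
/-- A subfield of `ℚ(ζ_n)`, `n` squarefree. -/
theorem hasNormalIntegralBasis_of_hom {n : ℕ} [NeZero n] (hsq : Squarefree n) (F : Type*) [Field F]
    [NumberField F] [IsGalois ℚ F] (f : F →ₐ[ℚ] CyclotomicField n ℚ) : HasNormalIntegralBasis F := by
  haveI : NeZero (n : ℚ) := ⟨Nat.cast_ne_zero.mpr (NeZero.ne n)⟩
  haveI : IsCyclotomicExtension {n} ℚ (CyclotomicField n ℚ) := CyclotomicField.isCyclotomicExtension n ℚ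
  haveI : IsGalois ℚ (CyclotomicField n ℚ) := IsCyclotomicExtension.isGalois {n} ℚ _
  let e : F ≃ₐ[ℚ] f.fieldRange := AlgEquiv.ofInjectiveField f
  haveI : IsGalois ℚ f.fieldRange := IsGalois.of_algEquiv e
  exact hasNormalIntegralBasis_congr e.symm
    (hasNormalIntegralBasis_intermediateField f.fieldRange (hasNormalIntegralBasis_cyclotomic hsq _))

/-- A Galois extension of prime degree is abelian. -/
theorem isAbelianGalois_prime (F : Type*) [Field F] [Algebra ℚ F] [IsGalois ℚ F] {ℓ : ℕ} (hℓ : ℓ.Prime)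
    (h : Module.finrank ℚ F = ℓ) : IsAbelianGalois ℚ F := by
  haveI : FiniteDimensional ℚ F := Module.finite_of_finrank_pos (h ▸ hℓ.pos)
  haveI : Fact ℓ.Prime := ⟨hℓ⟩
  haveI : IsCyclic Gal(F/ℚ) := isCyclic_of_prime_card (p := ℓ) (by rw [IsGalois.card_aut_eq_finrank, h])
  letI : CommGroup Gal(F/ℚ) := IsCyclic.commGroup
  exact { is_comm := ⟨mul_comm⟩ }

set_option backward.isDefEq.respectTransparency false in
/-- **Prime degree**: every conductor is squarefree iff the degree does not divide the discriminant. -/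
theorem forall_squarefree_iff_not_dvd_discr {n : ℕ} [NeZero n] (F : Type*) [Field F] [NumberField F]
    (f : F →ₐ[ℚ] CyclotomicField n ℚ) [IsCyclotomicExtension {n} ℚ (CyclotomicField n ℚ)]
    [IsAbelianGalois ℚ (CyclotomicField n ℚ)] {ℓ : ℕ} (hℓ : ℓ.Prime) (hdeg : Module.finrank ℚ F = ℓ) :
    (∀ χ ∈ FA.AbelianZeta.fieldChars n (CyclotomicField n ℚ) f.fieldRange, Squarefree χ.conductor) ↔
      ¬ (ℓ : ℤ) ∣ discr F := by
  have e : F ≃+* f.fieldRange := (AlgEquiv.ofInjectiveField f).toRingEquiv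
  have hd := FA.ConductorDiscr.discr_eq_prod (n := n) (CyclotomicField n ℚ) f.fieldRange e
  have hcard : Nat.card (FA.AbelianZeta.fieldChars n (CyclotomicField n ℚ) f.fieldRange) = ℓ := by
    rw [FA.AbelianZeta.fieldChars, IsCyclotomicExtension.Rat.card_intermediateFieldEquivSubgroupChar]
    exact (AlgEquiv.ofInjectiveField f).toLinearEquiv.finrank_eq.symm.trans hdeg
  have hpow : ∀ χ ∈ FA.AbelianZeta.fieldChars n (CyclotomicField n ℚ) f.fieldRange, χ ^ ℓ = 1 := fun χ hχ =>
    orderOf_dvd_iff_pow_eq_one.mp (hcard ▸ Subgroup.orderOf_dvd_natCard _ hχ)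
  rw [Int.natCast_dvd, hd]
  constructor
  · intro h hdvd
    obtain ⟨χ, hχ, hdvd'⟩ := hℓ.prime.exists_mem_finset_dvd hdvd
    have hχ' := (Finset.mem_filter.mp hχ).2
    exact not_order_dvd_squarefree_conductor (hpow χ hχ') hℓ (h χ hχ') hdvd'
  · intro h χ hχ
    rw [Nat.squarefree_iff_prime_squarefree]
    intro p hp hdvd
    obtain rfl : p = ℓ := (Nat.prime_dvd_prime_iff_eq hp hℓ).mp (dvd_order_of_sq_dvd_conductor (hpow χ hχ) hp hdvd)
    exact h ((dvd_of_mul_right_dvd hdvd).trans
      (Finset.dvd_prod_of_mem _ (Finset.mem_filter.mpr ⟨Finset.mem_univ _, hχ⟩)))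

end FA.HilbertSpeiser
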