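import Mathlib.NumberTheory.NumberField.Norm
import Mathlib.FieldTheory.Galois.Basic
import Mathlib.RingTheory.Trace.Basic
import Mathlib.LinearAlgebra.Dimension.OrzechProperty
import Mathlib.RingTheory.IntegralClosure.IntegralRestrict

/-!
# Normal integral bases

A number field has a normal integral basis if the conjugates of one of its integers form a `ℤ`-basis of the ring of
integers; it passes to isomorphic fields and to Galois subfields, and makes the trace onto `ℤ`.
-/

set_option autoImplicit false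
set_option linter.style.haveILetI false

noncomputable section

open NumberField IntermediateField
open scoped Classical

namespace FA.HilbertSpeiser

/-- The conjugates of some integer form a basis of the integers. -/
def HasNormalIntegralBasis (F : Type*) [Field F] [Algebra ℚ F] : Prop :=
  ∃ (θ : 𝓞 F) (b : Module.Basis (F ≃ₐ[ℚ] F) ℤ (𝓞 F)), ∀ σ : F ≃ₐ[ℚ] F, b σ = σ • θ

theorem coe_smul {F : Type*} [Field F] [Algebra ℚ F] (σ : F ≃ₐ[ℚ] F) (x : 𝓞 F) :
    ((σ • x : 𝓞 F) : F) = σ (x : F) := rfl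

/-- Spanning is enough. -/
theorem hasNormalIntegralBasis_of_span {F : Type*} [Field F] [NumberField F] [IsGalois ℚ F] (θ : 𝓞 F)
    (h : ⊤ ≤ Submodule.span ℤ (Set.range fun σ : F ≃ₐ[ℚ] F => σ • θ)) : HasNormalIntegralBasis F := by
  have hcard : Fintype.card (F ≃ₐ[ℚ] F) = Module.finrank ℤ (𝓞 F) := by
    rw [RingOfIntegers.rank, ← Nat.card_eq_fintype_card, IsGalois.card_aut_eq_finrank]
  refine ⟨θ, basisOfTopLeSpanOfCardEqFinrank _ h hcard, fun σ => ?_⟩
  rw [coe_basisOfTopLeSpanOfCardEqFinrank]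

/-- Coefficients. -/
theorem exists_eq_sum {F : Type*} [Field F] [NumberField F] {θ : 𝓞 F}
    {b : Module.Basis (F ≃ₐ[ℚ] F) ℤ (𝓞 F)} (hb : ∀ σ, b σ = σ • θ) (x : 𝓞 F) :
    x = ∑ σ : F ≃ₐ[ℚ] F, b.repr x σ • (σ • θ) := by
  conv_lhs => rw [← b.sum_repr x]
  exact Finset.sum_congr rfl fun σ _ => by rw [hb]

theorem smul_zsmul' {F : Type*} [Field F] [Algebra ℚ F] (σ : F ≃ₐ[ℚ] F) (c : ℤ) (x : 𝓞 F) :
    σ • (c • x) = c • (σ • x) :=
  map_zsmul (MulSemiringAction.toRingHom (F ≃ₐ[ℚ] F) (𝓞 F) σ) c x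

/-- An element fixed by `h` has coefficients invariant under `h`. -/
theorem repr_mul_eq {F : Type*} [Field F] [NumberField F] {θ : 𝓞 F}
    {b : Module.Basis (F ≃ₐ[ℚ] F) ℤ (𝓞 F)} (hb : ∀ σ, b σ = σ • θ) {x : 𝓞 F} {h : F ≃ₐ[ℚ] F}
    (hx : h • x = x) (σ : F ≃ₐ[ℚ] F) : b.repr x (h * σ) = b.repr x σ := by
  have e : x = ∑ τ : F ≃ₐ[ℚ] F, b.repr x (h⁻¹ * τ) • b τ := by
    conv_lhs => rw [← hx, exists_eq_sum hb x, Finset.smul_sum]
    refine Fintype.sum_equiv (Equiv.mulLeft h) _ _ fun τ => ?_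
    rw [Equiv.coe_mulLeft, inv_mul_cancel_left, smul_zsmul', smul_smul, hb]
  have e2 := congrArg (fun y => b.repr y (h * σ)) e
  rw [Module.Basis.repr_sum_self] at e2
  rw [e2, inv_mul_cancel_left]

/-- **The trace is onto `ℤ`.** -/
theorem exists_trace_eq_one {F : Type*} [Field F] [NumberField F] [IsGalois ℚ F]
    (h : HasNormalIntegralBasis F) : ∃ x : 𝓞 F, Algebra.trace ℚ F (x : F) = 1 := by
  obtain ⟨θ, b, hb⟩ := h
  have hc : ∀ σ : F ≃ₐ[ℚ] F, b.repr (1 : 𝓞 F) σ = b.repr (1 : 𝓞 F) 1 := fun σ => by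
    conv_lhs => rw [← mul_one σ]
    exact repr_mul_eq hb (smul_one σ) 1
  refine ⟨b.repr (1 : 𝓞 F) 1 • θ, ?_⟩
  apply (algebraMap ℚ F).injective
  rw [trace_eq_sum_automorphisms, map_one (algebraMap ℚ F), ← map_one (algebraMap (𝓞 F) F)]
  conv_rhs => rw [exists_eq_sum hb 1]
  rw [map_sum (algebraMap (𝓞 F) F)]
  refine Finset.sum_congr rfl fun σ _ => ?_
  rw [hc σ, ← smul_zsmul']
  rfl

/-- It passes to isomorphic fields. -/
theorem hasNormalIntegralBasis_congr {F F' : Type*} [Field F] [Field F'] [Algebra ℚ F] [Algebra ℚ F']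
    (e : F ≃ₐ[ℚ] F') (h : HasNormalIntegralBasis F) : HasNormalIntegralBasis F' := by
  obtain ⟨θ, b, hb⟩ := h
  let m : 𝓞 F ≃+* 𝓞 F' := RingOfIntegers.mapRingEquiv e.toRingEquiv
  refine ⟨m θ, (b.map m.toAddEquiv.toIntLinearEquiv).reindex e.autCongr.toEquiv, fun σ => ?_⟩
  rw [Module.Basis.reindex_apply, Module.Basis.map_apply, hb]
  apply RingOfIntegers.ext
  show e ((e.autCongr.symm σ) (θ : F)) = σ (e (θ : F))
  rw [AlgEquiv.autCongr_symm, AlgEquiv.autCongr_apply]
  simp

set_option backward.isDefEq.respectTransparency false in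
/-- The trace to a subfield, as a sum. -/
theorem sum_fixingSubgroup_mem {K : Type*} [Field K] [NumberField K] [IsGalois ℚ K]
    (E : IntermediateField ℚ K) [IsGalois ℚ E] (z : K) :
    ∑ g ∈ Finset.univ.filter (fun g : K ≃ₐ[ℚ] K => AlgEquiv.restrictNormalHom E g = 1), g z ∈ E := by
  suffices hf : ∑ g ∈ Finset.univ.filter (fun g : K ≃ₐ[ℚ] K => AlgEquiv.restrictNormalHom E g = 1), g z ∈
      fixedField E.fixingSubgroup from SetLike.le_def.mp (IsGalois.fixedField_fixingSubgroup E).le hf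
  rw [mem_fixedField_iff]
  intro h hh
  rw [← IntermediateField.restrictNormalHom_ker, MonoidHom.mem_ker] at hh
  rw [map_sum]
  refine Finset.sum_equiv (Equiv.mulLeft h) (fun g => ?_) fun g _ => rfl
  simp [hh]

set_option backward.isDefEq.respectTransparency false in
/-- It passes to Galois subfields. -/
theorem hasNormalIntegralBasis_intermediateField {K : Type*} [Field K] [NumberField K] [IsGalois ℚ K]
    (E : IntermediateField ℚ K) [IsGalois ℚ E] (h : HasNormalIntegralBasis K) : HasNormalIntegralBasis E := by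
  obtain ⟨θ, b, hb⟩ := h
  set r := AlgEquiv.restrictNormalHom (F := ℚ) (K₁ := K) E with hr
  have hθint : IsIntegral ℤ (∑ g ∈ Finset.univ.filter (fun g : K ≃ₐ[ℚ] K => r g = 1), g (θ : K)) :=
    IsIntegral.sum _ fun g _ => (g • θ).2
  let θE : 𝓞 E := ⟨⟨_, sum_fixingSubgroup_mem E (θ : K)⟩,
    (isIntegral_algHom_iff (E.val.restrictScalars ℤ) (algebraMap E K).injective).mp hθint⟩
  refine hasNormalIntegralBasis_of_span θE fun x _ => ?_
  let y : 𝓞 K := RingOfIntegers.mapRingHom (algebraMap E K) x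
  have hy : ∀ g, r g = 1 → g • y = y := fun g hg => by
    apply RingOfIntegers.ext
    show g (algebraMap E K (x : E)) = algebraMap E K (x : E)
    rw [← AlgEquiv.restrictNormal_commutes g E]
    change algebraMap E K (r g (x : E)) = _
    rw [hg]
    rfl
  have hker : ∀ g h, r g = r h → b.repr y g = b.repr y h := fun g h e => by
    have hk : r (g * h⁻¹) = 1 := by rw [map_mul, map_inv, e, mul_inv_cancel]
    rw [show g = g * h⁻¹ * h by group]
    exact repr_mul_eq hb (hy _ hk) h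
  choose l hl using AlgEquiv.restrictNormalHom_surjective (F := ℚ) (K₁ := E) K
  have hl' : ∀ σ, r (l σ) = σ := hl
  have hx : x = ∑ σ : E ≃ₐ[ℚ] E, b.repr y (l σ) • (σ • θE) := by
    apply RingOfIntegers.ext
    apply (algebraMap E K).injective
    simp only [map_sum]
    have h1 : (y : K) = ∑ g : K ≃ₐ[ℚ] K, b.repr y g • g (θ : K) := by
      conv_lhs => rw [exists_eq_sum hb y]
      exact (map_sum (algebraMap (𝓞 K) K) _ _).trans
        (Finset.sum_congr rfl fun g _ => map_zsmul (algebraMap (𝓞 K) K) _ _)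
    refine h1.trans ?_
    rw [← Finset.sum_fiberwise Finset.univ r]
    refine Finset.sum_congr rfl fun σ _ => ?_
    rw [map_zsmul, map_zsmul]
    have h2 : algebraMap E K (σ (θE : E)) = l σ (algebraMap E K (θE : E)) := by
      rw [← AlgEquiv.restrictNormal_commutes (l σ) E]
      exact congrArg (fun τ : E ≃ₐ[ℚ] E => algebraMap E K (τ (θE : E))) (hl' σ).symm
    rw [show algebraMap E K (algebraMap (𝓞 E) E (σ • θE)) = l σ (algebraMap E K (θE : E)) from h2,
      show algebraMap E K (θE : E) =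
      ∑ g ∈ Finset.univ.filter (fun g : K ≃ₐ[ℚ] K => r g = 1), g (θ : K) from rfl, map_sum, Finset.smul_sum]
    symm
    refine Finset.sum_equiv (Equiv.mulLeft (l σ)) (fun g => ?_) fun g hg => ?_
    · simp only [Finset.mem_filter, Finset.mem_univ, true_and, Equiv.coe_mulLeft, map_mul, hl']
      exact ⟨fun h => by rw [h, mul_one], fun h => mul_left_cancel (h.trans (mul_one σ).symm)⟩
    · rw [Equiv.coe_mulLeft, hker (l σ * g) (l σ) (by rw [map_mul, (Finset.mem_filter.mp hg).2, mul_one])]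
      rfl
  rw [hx]
  exact Submodule.sum_mem _ fun σ _ => Submodule.smul_mem _ _ (Submodule.subset_span ⟨σ, rfl⟩)

end FA.HilbertSpeiser
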