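import Fermat.Agent.HilbertSpeiser.Defs
import Mathlib.NumberTheory.NumberField.Cyclotomic.Galois

/-!
# The normal integral basis of a cyclotomic field of squarefree level

For a squarefree `n` every `n`-th root of unity is an integral combination of the primitive ones.
-/

set_option autoImplicit false
set_option linter.style.haveILetI false

noncomputable section

open NumberField
open scoped Classical

namespace FA.HilbertSpeiser

/-- Every root of unity from the primitive ones. -/
theorem pow_mem_span_primitive {R : Type*} [CommRing R] [IsDomain R] {n : ℕ} [NeZero n] (hsq : Squarefree n)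
    {ζ : R} (hζ : IsPrimitiveRoot ζ n) (j : ℕ) :
    ζ ^ j ∈ Submodule.span ℤ {μ : R | IsPrimitiveRoot μ n} := by
  induction hd : j.gcd n using Nat.strong_induction_on generalizing j with
  | _ d ih =>
    subst hd
    rcases eq_or_ne (j.gcd n) 1 with h1 | h1
    · exact Submodule.subset_span (hζ.pow_of_coprime j h1)
    · obtain ⟨p, hp, hpd⟩ := Nat.exists_prime_and_dvd h1
      obtain ⟨m, hm⟩ := hpd.trans (Nat.gcd_dvd_right j n)
      have hpj : p ∣ j := hpd.trans (Nat.gcd_dvd_left j n)
      have hpm : ¬ p ∣ m := fun ⟨c, hc⟩ => hp.not_isUnit (hsq p ⟨c, by rw [hm, hc, mul_assoc]⟩)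
      have hsum : ∑ i ∈ Finset.range p, (ζ ^ m) ^ i = 0 :=
        (hζ.pow (NeZero.pos n) (show n = m * p by rw [hm, mul_comm])).geom_sum_eq_zero hp.one_lt
      obtain ⟨q, rfl⟩ : ∃ q, p = q + 1 := ⟨p - 1, by have := hp.one_lt; omega⟩
      rw [Finset.sum_range_succ', pow_zero] at hsum
      have e : ζ ^ j = -∑ i ∈ Finset.range q, ζ ^ (j + (i + 1) * m) := by
        rw [eq_neg_iff_add_eq_zero, add_comm]
        calc ∑ i ∈ Finset.range q, ζ ^ (j + (i + 1) * m) + ζ ^ j
            = ζ ^ j * (∑ i ∈ Finset.range q, (ζ ^ m) ^ (i + 1) + 1) := by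
              rw [mul_add, mul_one, Finset.mul_sum]
              congr 1
              exact Finset.sum_congr rfl fun i _ => by rw [← pow_mul, ← pow_add, mul_comm m]
          _ = 0 := by rw [hsum, mul_zero]
      rw [e]
      refine Submodule.neg_mem _ (Submodule.sum_mem _ fun i hi => ih _ ?_ _ rfl)
      set g := (j + (i + 1) * m).gcd n
      have hpg : ¬ q + 1 ∣ g := fun h => by
        have h' := (Nat.dvd_add_right hpj).mp (h.trans (Nat.gcd_dvd_left _ _))
        rcases hp.dvd_mul.mp h' with h' | h'
        · exact absurd (Nat.le_of_dvd (Nat.succ_pos i) h') (by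
            rw [Finset.mem_range] at hi
            omega)
        · exact hpm h'
      have hgm : g ∣ m :=
        ((hp.coprime_iff_not_dvd.mpr hpg).symm).dvd_mul_left.mp (hm ▸ Nat.gcd_dvd_right _ _)
      have hgj : g ∣ j :=
        (Nat.dvd_add_left (hgm.mul_left (i + 1))).mp (Nat.gcd_dvd_left _ _)
      refine lt_of_le_of_ne (Nat.le_of_dvd (Nat.gcd_pos_of_pos_right j (NeZero.pos n))
        (Nat.dvd_gcd hgj (Nat.gcd_dvd_right _ _))) fun h => hpg (h ▸ hpd)

set_option backward.isDefEq.respectTransparency false in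
/-- **A cyclotomic field of squarefree level has a normal integral basis.** -/
theorem hasNormalIntegralBasis_cyclotomic {n : ℕ} [NeZero n] (hsq : Squarefree n) (K : Type*) [Field K]
    [NumberField K] [IsCyclotomicExtension {n} ℚ K] : HasNormalIntegralBasis K := by
  haveI : IsGalois ℚ K := IsCyclotomicExtension.isGalois {n} ℚ K
  have hζ := IsCyclotomicExtension.zeta_spec n ℚ K
  have hz := hζ.toInteger_isPrimitiveRoot
  refine hasNormalIntegralBasis_of_span hζ.toInteger fun x _ => ?_
  rw [← hζ.integralPowerBasis.basis.sum_repr x]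
  refine Submodule.sum_mem _ fun i _ => Submodule.smul_mem _ _ ?_
  rw [PowerBasis.basis_eq_pow, IsPrimitiveRoot.integralPowerBasis_gen]
  refine Submodule.span_mono ?_ (pow_mem_span_primitive hsq hz i)
  intro μ hμ
  obtain ⟨a, ha, hco, rfl⟩ := hz.isPrimitiveRoot_iff.mp hμ
  refine ⟨(IsCyclotomicExtension.Rat.galEquivZMod n K).symm (ZMod.unitOfCoprime a hco), ?_⟩
  show _ • _ = _
  rw [IsCyclotomicExtension.Rat.galEquivZMod_smul_of_pow_eq n K _ hz.pow_eq_one, MulEquiv.apply_symm_apply,
    ZMod.coe_unitOfCoprime, ZMod.val_natCast, Nat.mod_eq_of_lt ha]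

end FA.HilbertSpeiser
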