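import Fermat.Agent.HilbertSpeiser.Span
import Fermat.Agent.Root.SummaryKroneckerWeber

/-!
# A surjective trace forces a squarefree level

If `p ^ 2` divides `n`, the elements of `ℚ(ζ_n)` fixed by the group of order `p` fixing `ζ_n ^ p` sum every integer
into multiples of `p`; so an abelian field with an integer of trace `1` lies in a cyclotomic field of squarefree level.
-/

set_option autoImplicit false
set_option linter.style.haveILetI false

noncomputable section

open NumberField IntermediateField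
open scoped Classical

namespace FA.HilbertSpeiser

variable {n p m : ℕ} [NeZero n] {K : Type*} [Field K] [NumberField K] [IsCyclotomicExtension {n} ℚ K] {ζ : K}

set_option backward.isDefEq.respectTransparency false in
/-- The group fixing `ζ ^ p`. -/
theorem card_fixing_pow (hζ : IsPrimitiveRoot ζ n) (hp : p.Prime) (hn : n = p * m) (hm : p ∣ m) :
    Nat.card ℚ⟮ζ ^ p⟯.fixingSubgroup = p := by
  haveI : IsGalois ℚ K := IsCyclotomicExtension.isGalois {n} ℚ K
  haveI : NeZero m := ⟨fun e => NeZero.ne n (by rw [hn, e, mul_zero])⟩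
  haveI := (hζ.pow (NeZero.pos n) hn).intermediateField_adjoin_isCyclotomicExtension ℚ
  have h1 := Module.finrank_mul_finrank ℚ ℚ⟮ζ ^ p⟯ K
  rw [IsCyclotomicExtension.Rat.finrank (k := m) ℚ⟮ζ ^ p⟯, IsCyclotomicExtension.Rat.finrank (k := n) K, hn,
    Nat.totient_mul_of_prime_of_dvd hp hm, mul_comm p] at h1
  rw [IsGalois.card_fixingSubgroup_eq_finrank]
  exact Nat.eq_of_mul_eq_mul_left (Nat.totient_pos.mpr (NeZero.pos m)) h1

set_option backward.isDefEq.respectTransparency false in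
/-- **The sums over that group.** -/
theorem dvd_sum_fixing (hζ : IsPrimitiveRoot ζ n) (hp : p.Prime) (hn : n = p * m) (hm : p ∣ m) (y : 𝓞 K) :
    (p : 𝓞 K) ∣ ∑ u : ℚ⟮ζ ^ p⟯.fixingSubgroup, (u : K ≃ₐ[ℚ] K) • y := by
  rw [← hζ.integralPowerBasis.basis.sum_repr y]
  simp only [Finset.smul_sum, smul_zsmul']
  rw [Finset.sum_comm]
  refine Finset.dvd_sum fun j _ => ?_
  rw [← Finset.smul_sum, zsmul_eq_mul]
  refine Dvd.dvd.mul_left ?_ _
  rw [PowerBasis.basis_eq_pow, IsPrimitiveRoot.integralPowerBasis_gen]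
  set z := hζ.toInteger
  have hz : IsPrimitiveRoot z n := hζ.toInteger_isPrimitiveRoot
  have hη : IsPrimitiveRoot (z ^ m) p := hz.pow (NeZero.pos n) (by rw [hn, mul_comm])
  have hfix : ∀ u : ℚ⟮ζ ^ p⟯.fixingSubgroup, (u : K ≃ₐ[ℚ] K) • z ^ p = z ^ p := fun u => by
    apply RingOfIntegers.ext
    exact (mem_fixingSubgroup_iff _ _).mp u.2 _ (mem_adjoin_simple_self ℚ (ζ ^ p))
  have hcard : Fintype.card ℚ⟮ζ ^ p⟯.fixingSubgroup = p := by
    rw [← Nat.card_eq_fintype_card, card_fixing_pow hζ hp hn hm]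
  by_cases hj : p ∣ (j : ℕ)
  · obtain ⟨c, hc⟩ := hj
    rw [Finset.sum_congr rfl fun (u : ℚ⟮ζ ^ p⟯.fixingSubgroup) _ => show (u : K ≃ₐ[ℚ] K) • z ^ (j : ℕ) =
      z ^ (j : ℕ) by
      rw [hc, pow_mul, smul_pow', hfix u], Finset.sum_const, Finset.card_univ, hcard, nsmul_eq_mul]
    exact dvd_mul_right _ _
  · have hex : ∀ u : ℚ⟮ζ ^ p⟯.fixingSubgroup, ∃ i : Fin p, (u : K ≃ₐ[ℚ] K) • z = z * (z ^ m) ^ (i : ℕ) :=
      fun u => by
      haveI : NeZero p := ⟨hp.ne_zero⟩
      have hw : ((u : K ≃ₐ[ℚ] K) • z * z ^ (n - 1)) ^ p = 1 := by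
        rw [mul_pow, ← smul_pow', hfix u, ← mul_pow, ← pow_succ', Nat.sub_add_cancel (NeZero.pos n),
          hz.pow_eq_one, one_pow]
      obtain ⟨i, hi, hi'⟩ := hη.eq_pow_of_pow_eq_one hw
      refine ⟨⟨i, hi⟩, ?_⟩
      show _ = z * (z ^ m) ^ i
      rw [hi', mul_left_comm, ← pow_succ', Nat.sub_add_cancel (NeZero.pos n), hz.pow_eq_one, mul_one]
    choose i hi using hex
    have hinj : Function.Injective i := fun u v e => Subtype.ext <| by
      refine AlgEquiv.coe_toAlgHom_injective ((hζ.powerBasis ℚ).algHom_ext ?_)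
      have := congrArg (fun t : 𝓞 K => (t : K)) ((hi u).trans (e ▸ (hi v).symm))
      simp only [IsPrimitiveRoot.powerBasis_gen]
      exact this
    have hbij : Function.Bijective i := (Fintype.bijective_iff_injective_and_card i).mpr
      ⟨hinj, by rw [hcard, Fintype.card_fin]⟩
    rw [Finset.sum_congr rfl fun (u : ℚ⟮ζ ^ p⟯.fixingSubgroup) _ => show (u : K ≃ₐ[ℚ] K) • z ^ (j : ℕ) =
      z ^ (j : ℕ) * ((z ^ m) ^ (j : ℕ)) ^ (i u : ℕ) by rw [smul_pow', hi u, mul_pow, pow_right_comm],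
      ← Finset.mul_sum, hbij.sum_comp fun t => ((z ^ m) ^ (j : ℕ)) ^ (t : ℕ),
      Fin.sum_univ_eq_sum_range fun t => ((z ^ m) ^ (j : ℕ)) ^ t,
      (hη.pow_of_coprime _ (hp.coprime_iff_not_dvd.mpr hj).symm).geom_sum_eq_zero hp.one_lt, mul_zero]
    exact dvd_zero _

set_option backward.isDefEq.respectTransparency false in
/-- **Trace one forces a smaller level.** -/
theorem le_adjoin_pow (hζ : IsPrimitiveRoot ζ n) (hp : p.Prime) (hn : n = p * m) (hm : p ∣ m)
    (E : IntermediateField ℚ K) [IsGalois ℚ E] (x : 𝓞 E) (hx : Algebra.trace ℚ E (x : E) = 1) :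
    E ≤ ℚ⟮ζ ^ p⟯ := by
  haveI : IsGalois ℚ K := IsCyclotomicExtension.isGalois {n} ℚ K
  by_contra hle
  set U := ℚ⟮ζ ^ p⟯.fixingSubgroup with hU
  haveI : Fact (Nat.card U).Prime := ⟨by rw [card_fixing_pow hζ hp hn hm]; exact hp⟩
  set r := AlgEquiv.restrictNormalHom (F := ℚ) (K₁ := K) E with hr
  have htriv : ∀ u ∈ U, r u = 1 → u = 1 := fun u hu h => by
    have hmem : u ∈ E.fixingSubgroup := by
      rw [← IntermediateField.restrictNormalHom_ker]
      exact h
    rcases Subgroup.eq_bot_or_eq_top_of_prime_card (E.fixingSubgroup.subgroupOf U) with e | e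
    · have : (⟨u, hu⟩ : U) ∈ E.fixingSubgroup.subgroupOf U := hmem
      rw [e, Subgroup.mem_bot] at this
      exact congrArg Subtype.val this
    · refine absurd ?_ hle
      rw [← IsGalois.fixedField_fixingSubgroup ℚ⟮ζ ^ p⟯, IntermediateField.le_iff_le]
      exact Subgroup.subgroupOf_eq_top.mp e
  let rU : U →* (E ≃ₐ[ℚ] E) := r.comp U.subtype
  have hinj : Function.Injective rU :=
    (injective_iff_map_eq_one rU).mpr fun u h => Subtype.ext (htriv u.1 u.2 h)
  let y : 𝓞 K := RingOfIntegers.mapRingHom (algebraMap E K) x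
  have hy : ∀ g, ((g • y : 𝓞 K) : K) = algebraMap E K (r g (x : E)) := fun g =>
    (AlgEquiv.restrictNormal_commutes g E (x : E)).symm
  choose l hl using AlgEquiv.restrictNormalHom_surjective (F := ℚ) (K₁ := E) K
  have hl' : ∀ σ, r (l σ) = σ := hl
  have hdvd : (p : 𝓞 K) ∣ 1 := by
    have h1 : (1 : 𝓞 K) = ∑ q : (E ≃ₐ[ℚ] E) ⧸ rU.range,
        l q.out • ∑ u : U, (u : K ≃ₐ[ℚ] K) • y := by
      apply RingOfIntegers.ext
      have htr : (algebraMap E K) (algebraMap ℚ E (Algebra.trace ℚ E (x : E))) = ∑ σ : E ≃ₐ[ℚ] E,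
          algebraMap E K (σ (x : E)) := by
        rw [trace_eq_sum_automorphisms, map_sum]
      rw [hx, map_one, map_one] at htr
      refine (map_one (algebraMap (𝓞 K) K)).trans ?_
      rw [htr, ← Finset.sum_fiberwise (M := K) Finset.univ
        (fun σ : E ≃ₐ[ℚ] E => (σ : (E ≃ₐ[ℚ] E) ⧸ rU.range))]
      show _ = algebraMap (𝓞 K) K _
      rw [map_sum (algebraMap (𝓞 K) K)]
      refine Finset.sum_congr rfl fun q _ => ?_
      rw [Finset.smul_sum]
      refine Eq.trans ?_ (map_sum (algebraMap (𝓞 K) K) _ _).symm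
      symm
      refine Finset.sum_bij (fun u _ => q.out * rU u) (fun u _ => ?_)
        (fun u _ v _ e => hinj (mul_left_cancel e)) (fun σ hσ => ?_) fun u _ => ?_
      · refine Finset.mem_filter.mpr ⟨Finset.mem_univ _, ?_⟩
        conv_rhs => rw [← q.out_eq']
        exact QuotientGroup.eq.mpr (by simp)
      · have h := (Finset.mem_filter.mp hσ).2
        conv_rhs at h => rw [← q.out_eq']
        obtain ⟨u, hu⟩ := QuotientGroup.eq.mp h.symm
        exact ⟨u, Finset.mem_univ _, by rw [hu, mul_inv_cancel_left]⟩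
      · show ((l q.out • (u : K ≃ₐ[ℚ] K) • y : 𝓞 K) : K) = _
        rw [smul_smul, hy, map_mul, hl']
        rfl
    rw [h1]
    refine Finset.dvd_sum fun q _ => ?_
    obtain ⟨w, hw⟩ := dvd_sum_fixing hζ hp hn hm y
    refine ⟨l q.out • w, ?_⟩
    rw [hw, smul_mul']
    exact congrArg (· * l q.out • w) (map_natCast (MulSemiringAction.toRingHom _ (𝓞 K) (l q.out)) p)
  obtain ⟨w, hw⟩ := hdvd
  have hint : IsIntegral ℤ ((1 : ℚ) / p) := by
    refine (isIntegral_algHom_iff ((Algebra.ofId ℚ K).restrictScalars ℤ) (algebraMap ℚ K).injective).mp ?_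
    have e : (algebraMap ℚ K) ((1 : ℚ) / p) = (w : K) := by
      have := congrArg (fun t : 𝓞 K => (t : K)) hw
      simp only [map_one, map_mul, map_natCast] at this
      rw [map_div₀, map_one, map_natCast, div_eq_iff (Nat.cast_ne_zero.mpr hp.ne_zero), this, mul_comm]
    show IsIntegral ℤ ((algebraMap ℚ K) ((1 : ℚ) / p))
    rw [e]
    exact w.2
  obtain ⟨k, hk⟩ := IsIntegrallyClosed.isIntegral_iff.mp hint
  rw [eq_div_iff (Nat.cast_ne_zero.mpr hp.ne_zero)] at hk
  have hk' : k * (p : ℤ) = 1 := by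
    rw [eq_intCast] at hk
    exact_mod_cast hk
  have := Int.eq_one_of_mul_eq_one_left (Int.natCast_nonneg p) hk'
  exact hp.ne_one (by exact_mod_cast this)

omit [NeZero n] in
set_option backward.isDefEq.respectTransparency false in
/-- **A minimal level is squarefree.** -/
theorem exists_squarefree_level (F : Type*) [Field F] [NumberField F] [IsAbelianGalois ℚ F] (x : 𝓞 F)
    (hx : Algebra.trace ℚ F (x : F) = 1) :
    ∃ n : ℕ, Squarefree n ∧ 0 < n ∧ Nonempty (F →ₐ[ℚ] CyclotomicField n ℚ) := by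
  have hex := FA.Summary.kroneckerWeber_cyclotomicField F
  obtain ⟨hpos, ⟨f⟩⟩ := Nat.find_spec hex
  refine ⟨Nat.find hex, ?_, hpos, ⟨f⟩⟩
  by_contra hsq
  obtain ⟨p, hp, hdvd⟩ : ∃ p, p.Prime ∧ p * p ∣ Nat.find hex := by
    simpa [Nat.squarefree_iff_prime_squarefree] using hsq
  obtain ⟨c, hc⟩ := hdvd
  set N := Nat.find hex with hN
  haveI : NeZero N := ⟨hpos.ne'⟩
  haveI : NeZero (N : ℚ) := ⟨Nat.cast_ne_zero.mpr hpos.ne'⟩
  haveI : IsCyclotomicExtension {N} ℚ (CyclotomicField N ℚ) := CyclotomicField.isCyclotomicExtension N ℚ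
  haveI : NumberField (CyclotomicField N ℚ) := IsCyclotomicExtension.numberField {N} ℚ _
  let e : F ≃ₐ[ℚ] f.fieldRange := AlgEquiv.ofInjectiveField f
  haveI : IsGalois ℚ f.fieldRange := IsGalois.of_algEquiv e
  let x' : 𝓞 f.fieldRange := RingOfIntegers.mapRingEquiv e.toRingEquiv x
  have hζ := IsCyclotomicExtension.zeta_spec N ℚ (CyclotomicField N ℚ)
  have hn : N = p * (p * c) := by rw [hc, mul_assoc]
  have hle := le_adjoin_pow hζ hp hn (dvd_mul_right p c) f.fieldRange x'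
    ((Algebra.trace_eq_of_algEquiv e (x : F)).trans hx)
  haveI : NeZero (p * c) := ⟨fun h => hpos.ne' (by rw [hn, h, mul_zero])⟩
  haveI := (hζ.pow hpos hn).intermediateField_adjoin_isCyclotomicExtension ℚ
  haveI : NeZero ((p * c : ℕ) : ℚ) := ⟨Nat.cast_ne_zero.mpr (NeZero.ne (p * c))⟩
  haveI : IsCyclotomicExtension {p * c} ℚ (CyclotomicField (p * c) ℚ) :=
    CyclotomicField.isCyclotomicExtension (p * c) ℚ
  refine absurd (Nat.find_min' hex ⟨NeZero.pos (p * c), ⟨((IsCyclotomicExtension.algEquiv {p * c} ℚ _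
    (CyclotomicField (p * c) ℚ)).toAlgHom.comp ((inclusion hle).comp e.toAlgHom))⟩⟩) ?_
  rw [not_le, ← hN, hn]
  exact lt_mul_left (NeZero.pos (p * c)) hp.one_lt

end FA.HilbertSpeiser
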